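/-
S59lib / LGC3 / Theta3  (helper2) — Project I, item P3-d: LGC at `p = 3`.

**(B′) THETA, first power**: in characteristic `q ≥ 5`, for `m` even with `2 ≤ m ≤ q - 3`,
  `12 h̄ · (Ē₄Ē₆)^(m/2) = P₂(j̄) · Δ̄^(m/2)`,
`h̄ = sharp q (d ↦ d^m)` the reduction of the Kummer generator.  This is helper8's
`S43lib.LGC.KCM.exists_sharp_pow_eq` (which gives `(12 h̄)^12 = P₁(j̄) Δ̄^m`) with the isobaric numerator
`(XX·YY)^q · Θ · (XX·YY)^(m/2)` of weight `12 (q + m/2)` in place of `(XX·YY)^(12 q) · Θ^12`; it keeps the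
`3`-part (and the `2`-part) of the orders that the twelfth power destroys.
-/
import Mathlib
import Fermat.Agent.S43lib.LGC.KCM.ThetaQ

set_option autoImplicit false
set_option linter.style.haveILetI false
set_option linter.unusedSectionVars false

noncomputable section

namespace Fermat.Agent.S59lib.LGC3

open MvPolynomial ModularCurve
open Fermat.Agent.S16lib Fermat.Agent.S16lib.SwD Fermat.Agent.S16lib.SwDBridge
open Fermat.Agent.S28lib Fermat.Agent.S18lib Fermat.Agent.LSb.Count Fermat.Agent.S48lib.X1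
open Fermat.Agent.S43lib.LGC.KCM

variable {A : ValuationSubring (AlgebraicClosure ℚ)}

local notation "kA" => IsLocalRing.ResidueField A

variable {q : ℕ} [Fact q.Prime] [NeZero q]

/-- **(B′) THETA, first power** -/
theorem exists_sharp_mul_eq (h5 : 5 ≤ q) (hA : A.LiesOverPrime q) (m : ℕ) (hm : Even m)
    (hm2 : 2 ≤ m) (hmq : m + 3 ≤ q) :
    ∃ P₂ : Polynomial kA,
      (12 : LaurentSeries kA) * sharp q (fun d : ℕ => ((d : kA)) ^ m) *
          phiL kA (XX * YY) ^ (m / 2) =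
        Polynomial.aeval (jqModC kA) P₂ * DeltaQ kA ^ (m / 2) := by
  haveI := Gink.charP_kRes A hA
  have hq1 : 1 ≤ q := by omega
  have h1728 : (1728 : kRes A) ≠ 0 := ofNat_1728_ne_zero A hA h5
  obtain ⟨AH, hAH, hAH1⟩ := exists_hasse_kRes A hA h5
  obtain ⟨G, hG, hGθ⟩ := exists_eis_kRes A hA h5 hm hm2 hmq
  set D := rdata (kRes A) h1728 with hD
  have hevA : D.ev AH = 1 := hAH1
  have hθ : theta (D.ev G) = eisSer (fun d : ℕ => ((d : kRes A)) ^ m) := hGθ
  -- the polynomial `Θ`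
  set Θ : MvPolynomial (Fin 2) (kRes A) :=
    C (((m + q - 1 : ℕ) : kRes A)) * (dd AH * G) + AH * dd G with hΘ
  have hΘiso : Iso Θ (m + 2 * q) := by
    have i1 : Iso (dd AH * G) (m + 2 * q) := by
      have := (iso_dd hAH).mul hG
      have e : q - 1 + 2 + (m + q - 1) = m + 2 * q := by omega
      rwa [e] at this
    have i2 : Iso (AH * dd G) (m + 2 * q) := by
      have := hAH.mul (iso_dd hG)
      have e : q - 1 + (m + q - 1 + 2) = m + 2 * q := by omega
      rwa [e] at this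
    exact (iso_C_mul i1 _).add i2
  have hΘev : D.ev Θ = 12 * eisSer (fun d : ℕ => ((d : kRes A)) ^ m) := by
    have h := RData.theta_ev D G
    rw [ee_iso hG, map_smul, hθ, ← RData.ev_dd_hasse D hq1 hAH hevA] at h
    rw [h, hΘ, map_add, map_mul, map_mul, map_mul, hevA, one_mul]
    have : D.ev (C (((m + q - 1 : ℕ) : kRes A))) =
        algebraMap (kRes A) (PowerSeries (kRes A)) (((m + q - 1 : ℕ) : kRes A)) := by
      simp [RData.ev]
    rw [this, Algebra.smul_def]
    ring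
  obtain ⟨μ, hμ⟩ := hm
  have hμ2 : m / 2 = μ := by omega
  rw [hμ2]
  -- the numerator
  set N : MvPolynomial (Fin 2) (kRes A) := (XX * YY) ^ q * Θ * (XX * YY) ^ μ with hN
  have hNiso : Iso N (12 * (q + μ) + 4 * 0 + 6 * 0) := by
    have := (((iso_XX (κ := kRes A)).mul iso_YY).pow q |>.mul hΘiso).mul
      (((iso_XX (κ := kRes A)).mul iso_YY).pow μ)
    have e : q • (4 + 6) + (m + 2 * q) + μ • (4 + 6) = 12 * (q + μ) + 4 * 0 + 6 * 0 := by
      simp only [smul_eq_mul]; omega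
    rwa [e] at this
  have hδ : phiL (kRes A) DlN ≠ 0 := by
    rw [phiL_DlN _ h1728]; exact DeltaQ_ne_zero _
  have hstar := phi_eq_deh (phiL (kRes A)) h1728 hδ (le_of_eq rfl |>.trans (Nat.zero_le 1))
    (Nat.zero_le 1) hNiso
  rw [jphi_phiL _ h1728, phiL_DlN _ h1728, pow_zero, pow_zero, one_mul, one_mul] at hstar
  refine ⟨deh 0 0 N, ?_⟩
  have hΔ0 : DeltaQ (kRes A) ^ q ≠ 0 := pow_ne_zero _ (DeltaQ_ne_zero _)
  apply mul_right_cancel₀ hΔ0
  have hphiΘ : phiL (kRes A) Θ =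
      (12 : LaurentSeries (kRes A)) *
        HahnSeries.ofPowerSeries ℤ (kRes A) (eisSer (fun d : ℕ => ((d : kRes A)) ^ m)) := by
    rw [phiL_eq]
    have : aeval ![Qk (kRes A), Rk (kRes A)] Θ = D.ev Θ := rfl
    rw [this, hΘev, map_mul, map_ofNat]
  calc (12 : LaurentSeries (kRes A)) * sharp q (fun d : ℕ => ((d : kRes A)) ^ m) *
        phiL (kRes A) (XX * YY) ^ μ * DeltaQ (kRes A) ^ q
      = (w10 (kRes A) * DeltaQ (kRes A)) ^ q * ((12 : LaurentSeries (kRes A)) *
          HahnSeries.ofPowerSeries ℤ (kRes A) (eisSer (fun d : ℕ => ((d : kRes A)) ^ m))) *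
          phiL (kRes A) (XX * YY) ^ μ := by
        rw [sharp, pref_eq_pow (kRes A) q]
        ring
    _ = phiL (kRes A) N := by
        rw [w10_mul_DeltaQ, ← hphiΘ, hN, map_mul (phiL (kRes A)) ((XX * YY) ^ q * Θ),
          map_mul (phiL (kRes A)) ((XX * YY) ^ q), map_pow, map_pow]
    _ = Polynomial.aeval (jqModC (kRes A)) (deh 0 0 N) * DeltaQ (kRes A) ^ μ *
          DeltaQ (kRes A) ^ q := by
        rw [hstar, pow_add]
        ring

end Fermat.Agent.S59lib.LGC3
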