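/-
S59lib / LGC3 / Node3  (helper2) — Project I, item P3-d: LGC at `p = 3`.

**The node condition for every odd `p`**: at every supersingular point `v` of `X₀(M)_k`
(`v ∈ modNodes D1`) the order of `ū₁ = red₁ (h^♯_ψ)^e`, `e = p^t`, is prime to `p` — `p ≠ 2` instead of
`5 ≤ p` (`S43lib.LGC.KCM.node_coprime`).

With `e m = (q-1) j`, `gcd(j, e) = 1`, `m = 2μ`, the first-power identity `12 h̄ (Ē₄Ē₆)^μ = P₂(j̄) Δ̄^μ`
(`Theta3`), `Ē₄³ = j̄ Δ̄`, `Ē₆² = (j̄ - 1728) Δ̄` and `H₂ Δ̄^(q-1) = 1` give the identity of functions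
  `12^(12e) ū₁^12 (j̄² (j̄-1728)³)^((q-1) j) H₂^j = P₂(j̄)^(12 e)`,
hence `12 ord ū₁ + (q-1) j (2 ord j̄ + 3 ord (j̄-1728)) + j ord H₂ = 12 e ord P₂(j̄)` at `v`.
* `p ≥ 5`: `p ∣ q-1`, `p ∣ e`; `p ∣ ord ū₁` would give `p ∣ ord H₂ ∣ 12`.
* `p = 3`: `q ≡ 1 mod 3`, so `j = 0` is ordinary (`LSb.Count.exists_poly_of_mul_DeltaQ` with `d = 0`) and
  `ord_v j̄ = 0`; modulo `9`, `3 ∣ ord ū₁` would give `9 ∣ ord H₂ ∣ 12`.
-/
import Mathlib
import Fermat.Agent.S43lib.LGC.KCM.OrdGlue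
import Fermat.Agent.S43lib.LGC.KCM.OrdDvd
import Fermat.Agent.S59lib.LGC3.Theta3

set_option autoImplicit false
set_option linter.unusedSectionVars false
set_option linter.style.haveILetI false

noncomputable section

namespace Fermat.Agent.S59lib.LGC3

open ModularCurve Polynomial AlgebraicCurve
open Fermat.Agent.ProgramR Fermat.Agent.S18lib Fermat.Agent.S28lib Fermat.Agent.LSb
open Fermat.Agent.LSb.Count Fermat.Agent.S43lib.LGC.KCM Fermat.Agent.S48lib.X1
open Fermat.Agent.S16lib.SwD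

local notation "Qb" => AlgebraicClosure ℚ

variable {M q : ℕ} [NeZero M] [NeZero q] [hq : Fact q.Prime]
variable {A : ValuationSubring (AlgebraicClosure ℚ)}

local notation "kA" => IsLocalRing.ResidueField A

/-! ### the Laurent series identity -/

section Series

variable {κ : Type*} [Field κ]

/-- `Ē₄³ = j̄ Δ̄` -/
theorem phiL_XX_cube (h1728 : (1728 : κ) ≠ 0) :
    phiL κ XX ^ 3 = jqModC κ * DeltaQ κ := by
  have h := jphi_phiL κ h1728
  rw [jphi, phiL_DlN κ h1728] at h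
  rw [← h, div_mul_cancel₀ _ (DeltaQ_ne_zero κ)]

/-- `Ē₆² = (j̄ - 1728) Δ̄` -/
theorem phiL_YY_sq (h1728 : (1728 : κ) ≠ 0) :
    phiL κ YY ^ 2 = (jqModC κ - 1728) * DeltaQ κ := by
  have h := phi_DlN (phiL κ) h1728
  rw [phiL_DlN κ h1728] at h
  rw [sub_mul, ← phiL_XX_cube h1728]
  linear_combination h

/-- the identity of Laurent series behind the node condition -/
theorem series_identity (h1728 : (1728 : κ) ≠ 0) {s H P : LaurentSeries κ} {μ E n J r : ℕ}
    (hT : (12 : LaurentSeries κ) * s * phiL κ (XX * YY) ^ μ =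
      P * DeltaQ κ ^ μ)
    (hH : H * DeltaQ κ ^ r = 1) (hn : 2 * μ * E = n) (hnr : n = r * J) :
    (12 : LaurentSeries κ) ^ (12 * E) * (s ^ E) ^ 12 *
      (jqModC κ ^ 2 * (jqModC κ - 1728) ^ 3) ^ n * H ^ J = P ^ (12 * E) := by
  set a := phiL κ XX with ha
  set b := phiL κ YY with hb
  set Δ := DeltaQ κ with hΔ
  set jj := jqModC κ with hjj
  have hΔ0 : Δ ≠ 0 := DeltaQ_ne_zero κ
  have hab : phiL κ (XX * YY) = a * b := map_mul _ _ _
  rw [hab] at hT
  have h6 : (a * b) ^ 6 = jj ^ 2 * (jj - 1728) ^ 3 * Δ ^ 5 := by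
    have : (a * b) ^ 6 = (a ^ 3) ^ 2 * (b ^ 2) ^ 3 := by ring
    rw [this, phiL_XX_cube h1728, phiL_YY_sq h1728]
    ring
  have hpow : ((12 : LaurentSeries κ) * s * (a * b) ^ μ) ^ (12 * E) = (P * Δ ^ μ) ^ (12 * E) := by
    rw [hT]
  have e1 : ((12 : LaurentSeries κ) * s * (a * b) ^ μ) ^ (12 * E) =
      (12 : LaurentSeries κ) ^ (12 * E) * (s ^ E) ^ 12 * ((a * b) ^ 6) ^ n := by
    rw [mul_pow, mul_pow, ← pow_mul (a * b), ← pow_mul (a * b), ← pow_mul s]
    have x1 : μ * (12 * E) = 6 * n := by rw [← hn]; ring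
    have x2 : E * 12 = 12 * E := by ring
    rw [x1, x2]
  have e2 : (P * Δ ^ μ) ^ (12 * E) = P ^ (12 * E) * (Δ ^ 5) ^ n * (Δ ^ r) ^ J := by
    rw [mul_pow, ← pow_mul, ← pow_mul, ← pow_mul, mul_assoc, ← pow_add]
    congr 2
    rw [hnr] at hn ⊢
    nlinarith [hn]
  rw [e1, e2, h6, mul_pow] at hpow
  have hΔn : (Δ ^ 5) ^ n ≠ 0 := pow_ne_zero _ (pow_ne_zero _ hΔ0)
  have h3 : (12 : LaurentSeries κ) ^ (12 * E) * (s ^ E) ^ 12 * (jj ^ 2 * (jj - 1728) ^ 3) ^ n =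
      P ^ (12 * E) * (Δ ^ r) ^ J := by
    apply mul_right_cancel₀ hΔn
    linear_combination hpow
  rw [h3, mul_assoc, ← mul_pow, mul_comm (Δ ^ r), hH, one_pow, mul_one]

end Series

/-! ### `j̄` does not vanish at the nodes when `q ≡ 1 mod 3` -/

variable {D1 : GaussDatum A (FBar (M * q)) (FRes A M)}

theorem ord_jK_eq_zero_of_node (h5 : 5 ≤ q) (hA : A.LiesOverPrime q) (h1 : Old.IsGaussOne D1)
    (hq3 : q % 3 = 1) {v : Place kA (FRes A M)} (hv : v ∈ Unit.modNodes D1) :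
    v.ord (Gink.jK A M) = 0 := by
  classical
  rw [Unit.modNodes, Unit.mem_nodeSet] at hv
  have hH0 : Unit.H₂ D1 ≠ 0 := Unit.H₂_ne_zero h1
  have hHpos : 0 < v.ord (Unit.H₂ D1) :=
    ((LSb.adicValuation_lt_one_iff (Q := v)).1 hv.2).resolve_left hH0
  have hnn : 0 ≤ v.ord (Gink.jK A M) := FF.ord_nonneg_of_mem v hv.1
  by_contra hne
  have hpos : 0 < v.ord (Gink.jK A M - algebraMap kA (FRes A M) 0) := by
    rw [map_zero, sub_zero]
    exact lt_of_le_of_ne hnn (Ne.symm hne)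
  obtain ⟨m, d, e, hmde, hd, he⟩ := LSb.Count.exists_mde (q := q) h5
  have hd0 : d = 0 := by rw [hd, if_neg (by omega)]
  have hd1 : d ≤ 1 := by omega
  have he1 : e ≤ 1 := by rw [he]; split_ifs <;> omega
  have hH := Unit.coe_H₂_mul hA h1 (D1 := D1)
  obtain ⟨b, hmon, -, hb0, -, -, hhb⟩ :=
    LSb.Count.exists_poly_of_mul_DeltaQ M A hA h5 hmde hd1 he1 (Unit.H₂ D1) hH
  have h1728 : (1728 : kA) ≠ 0 := LSb.Count.ofNat_1728_ne_zero A hA h5
  set P : kA[X] := X ^ (4 * d) * (X - C 1728) ^ (6 * e) * b ^ 12 with hP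
  have hPeval : P.eval 0 ≠ 0 := by
    rw [hP, hd0]
    simp only [mul_zero, pow_zero, one_mul, eval_mul, eval_pow, eval_sub, eval_X, eval_C, zero_sub]
    exact mul_ne_zero (pow_ne_zero _ (neg_ne_zero.mpr h1728)) (pow_ne_zero _ hb0)
  have hP0 : P ≠ 0 := fun h0 => hPeval (by rw [h0, eval_zero])
  have hmult : P.rootMultiplicity 0 = 0 := rootMultiplicity_eq_zero hPeval
  have hord := S36lib.Count.ord_aeval_eq hpos hP0
  rw [hmult, Nat.cast_zero, zero_mul, ← hhb] at hord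
  omega

/-! ### the node condition -/

variable {ψ : MulChar (ZMod q) Qb} {p t : ℕ}

theorem not_nine_dvd_of_dvd_twelve {h : ℤ} (hh : h ∣ 12) : ¬ (9 : ℤ) ∣ h := by
  intro h9
  have := h9.trans hh
  norm_num at this

set_option maxHeartbeats 800000 in
/-- **the node condition, `p` odd** -/
theorem node_coprime_odd (h5 : 5 ≤ q) (hqM : ¬ q ∣ M)
    (hA : A.LiesOverPrime q) (h1 : Old.IsGaussOne D1) (hp : p.Prime) (hp2 : p ≠ 2) (ht : t ≠ 0)
    (H : IsOrd ψ (p ^ t)) (hψ : ψ ≠ 1) (heven : ψ (-1) = 1)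
    {v : Place kA (FRes A M)} (hv : v ∈ Unit.modNodes D1) :
    IsCoprime ((p ^ t : ℕ) : ℤ) (v.ord (D1.redF (uOne (M := M) H hψ heven))) := by
  haveI := Old.charP_kRes hA
  obtain ⟨m, j, hmeven, hm2, hmq, hem, hcop, hchi⟩ :=
    exists_pow_form hA (five_le_ne_two h5) H (one_lt_prime_pow hp ht) heven
  obtain ⟨P₂, hP₂⟩ := exists_sharp_mul_eq (A := A) h5 hA m hmeven hm2 hmq
  obtain ⟨μ, hμ⟩ := hmeven
  have hμ2 : m / 2 = μ := by omega
  rw [hμ2] at hP₂
  set e := p ^ t with he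
  set ubar := D1.redF (uOne (M := M) H hψ heven) with hubar
  set s : LaurentSeries kA := sharp q (fun d : ℕ => ((d : ℕ) : kA) ^ m) with hs
  have h1728 : (1728 : kA) ≠ 0 := LSb.Count.ofNat_1728_ne_zero A hA h5
  have hcoe : ((ubar : FRes A M) : LaurentSeries kA) = s ^ e := by
    rw [hubar, coe_redF_uOne h1 H hψ heven, hs]
    congr 2
    funext d
    exact hchi d
  set W : FRes A M := aeval (Gink.jK A M) P₂ with hW
  have hWcoe : ((W : FRes A M) : LaurentSeries kA) = aeval (jqModC kA) P₂ := by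
    rw [hW, Gink.coe_aeval_jK]
    rfl
  have hH := Unit.coe_H₂_mul hA h1 (D1 := D1)
  set n := (q - 1) * j with hn
  have hn2 : 2 * μ * e = n := by
    rw [← hem, hμ]; ring
  set jK := Gink.jK A M with hjK
  set c12 : FRes A M := algebraMap kA (FRes A M) 12 with hc12
  set c1728 : FRes A M := algebraMap kA (FRes A M) 1728 with hc1728
  -- the key identity
  have hkey : c12 ^ (12 * e) * ubar ^ 12 * (jK ^ 2 * (jK - c1728) ^ 3) ^ n * Unit.H₂ D1 ^ j =
      W ^ (12 * e) := by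
    apply Subtype.ext
    rw [hc12, hc1728]
    push_cast
    rw [map_ofNat, map_ofNat, hcoe, hWcoe, hjK, Gink.coe_jK]
    exact series_identity h1728 hP₂ hH hn2 rfl
  -- nonvanishing
  have hu0 : ubar ≠ 0 := redF_uOne_ne_zero h1 H hψ heven
  have hH0 : Unit.H₂ D1 ≠ 0 := Unit.H₂_ne_zero h1
  have h12k : (12 : kA) ≠ 0 := by
    intro h0
    apply h1728
    have : (1728 : kA) = 12 * 144 := by norm_num
    rw [this, h0, zero_mul]
  have hc0 : c12 ≠ 0 := (_root_.map_ne_zero _).2 h12k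
  have hx : Transcendental kA jK := Gink.transcendental_jK A M
  have hjne : jK ≠ 0 := fun h0 => hx (h0 ▸ isAlgebraic_zero)
  have hj1ne : jK - c1728 ≠ 0 := fun h0 =>
    hx (sub_eq_zero.mp h0 ▸ isAlgebraic_algebraMap _)
  have hJ0 : jK ^ 2 * (jK - c1728) ^ 3 ≠ 0 := mul_ne_zero (pow_ne_zero _ hjne) (pow_ne_zero _ hj1ne)
  have he0 : e ≠ 0 := by rw [he]; exact pow_ne_zero _ hp.ne_zero
  have hW0 : W ≠ 0 := by
    intro h0
    rw [h0, zero_pow (by positivity : 12 * e ≠ 0)] at hkey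
    exact mul_ne_zero (mul_ne_zero (mul_ne_zero (pow_ne_zero _ hc0) (pow_ne_zero _ hu0))
      (pow_ne_zero _ hJ0)) (pow_ne_zero _ hH0) hkey
  -- orders
  have hord : 12 * v.ord ubar + (n : ℤ) * (2 * v.ord jK + 3 * v.ord (jK - c1728)) +
      (j : ℤ) * v.ord (Unit.H₂ D1) = 12 * (e : ℤ) * v.ord W := by
    have := congrArg v.ord hkey
    rw [v.ord_mul (mul_ne_zero (mul_ne_zero (pow_ne_zero _ hc0) (pow_ne_zero _ hu0))
        (pow_ne_zero _ hJ0)) (pow_ne_zero _ hH0),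
      v.ord_mul (mul_ne_zero (pow_ne_zero _ hc0) (pow_ne_zero _ hu0)) (pow_ne_zero _ hJ0),
      v.ord_mul (pow_ne_zero _ hc0) (pow_ne_zero _ hu0), Cech.ord_pow, Cech.ord_pow, Cech.ord_pow,
      Cech.ord_pow, Cech.ord_pow, v.ord_mul (pow_ne_zero _ hjne) (pow_ne_zero _ hj1ne),
      Cech.ord_pow, Cech.ord_pow, hc12, Cech.ord_const, mul_zero, zero_add] at this
    push_cast at this ⊢
    linarith
  -- the order of `H₂` at the node
  have hv' := hv
  rw [Unit.modNodes, Unit.mem_nodeSet] at hv'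
  have hHpos : 0 < v.ord (Unit.H₂ D1) :=
    ((LSb.adicValuation_lt_one_iff (Q := v)).1 hv'.2).resolve_left hH0
  have hHdvd : v.ord (Unit.H₂ D1) ∣ 12 :=
    ord_dvd_twelve h5 hqM hA (Unit.H₂ D1) hH v hv'.1 hHpos
  -- `p ∣ e`, `p ∣ q - 1`
  have hpZ : Prime (p : ℤ) := Nat.prime_iff_prime_int.mp hp
  have hpe : p ∣ e := by rw [he]; exact dvd_pow_self _ ht
  have hjp : Nat.Coprime j p := Nat.Coprime.coprime_dvd_right hpe hcop
  have heq1 : e ∣ q - 1 := by
    have h2 : e ∣ (q - 1) * j := ⟨m, hem.symm⟩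
    exact (Nat.Coprime.dvd_of_dvd_mul_right hcop.symm h2)
  have hpq1 : p ∣ q - 1 := hpe.trans heq1
  have hpn : (p : ℤ) ∣ (n : ℤ) := by
    rw [hn]
    exact Int.natCast_dvd_natCast.mpr (hpq1.mul_right j)
  have hcop1 : IsCoprime (p : ℤ) (v.ord ubar) := by
    rw [hpZ.irreducible.coprime_iff_not_dvd]
    intro hdvd
    by_cases hp3 : p = 3
    · -- `p = 3`
      subst hp3
      have hq3 : q % 3 = 1 := by
        have := hq.out.two_le
        omega
      have hj0 : v.ord jK = 0 := ord_jK_eq_zero_of_node h5 hA h1 hq3 hv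
      obtain ⟨x', hx'⟩ := hdvd
      obtain ⟨e', he'⟩ := hpe
      obtain ⟨n', hn'⟩ := hpn
      rw [hj0, hx', hn', he'] at hord
      push_cast at hord
      have h9 : (9 : ℤ) ∣ (j : ℤ) * v.ord (Unit.H₂ D1) :=
        ⟨4 * e' * v.ord W - 4 * x' - n' * v.ord (jK - c1728), by linarith⟩
      have hj9 : IsCoprime (9 : ℤ) (j : ℤ) := by
        have h3 : IsCoprime (3 : ℤ) (j : ℤ) := by
          have := Nat.isCoprime_iff_coprime.mpr hjp.symm
          exact_mod_cast this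
        have : IsCoprime ((3 : ℤ) ^ 2) (j : ℤ) := h3.pow_left
        norm_num at this
        exact this
      exact not_nine_dvd_of_dvd_twelve hHdvd (hj9.dvd_of_dvd_mul_left h9)
    · -- `p ≥ 5`
      have h1' : (p : ℤ) ∣ (j : ℤ) * v.ord (Unit.H₂ D1) := by
        have h2 : (p : ℤ) ∣ 12 * (e : ℤ) * v.ord W :=
          Dvd.dvd.mul_right (Dvd.dvd.mul_left (Int.natCast_dvd_natCast.mpr hpe) 12) _
        rw [← hord] at h2
        have h3 : (p : ℤ) ∣ 12 * v.ord ubar + (n : ℤ) * (2 * v.ord jK + 3 * v.ord (jK - c1728)) :=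
          dvd_add (Dvd.dvd.mul_left hdvd 12) (Dvd.dvd.mul_right hpn _)
        exact (Int.dvd_add_right h3).mp h2
      rcases hpZ.dvd_or_dvd h1' with h2 | h2
      · have h3 : p ∣ j := Int.natCast_dvd_natCast.mp h2
        have := Nat.Coprime.eq_one_of_dvd hjp.symm h3
        have := hp.one_lt
        omega
      · have h3 : (p : ℤ) ∣ 12 := h2.trans hHdvd
        have h4 : p ∣ 12 := by exact_mod_cast h3
        have h5' : p ∣ 2 ^ 2 * 3 := by norm_num; exact h4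
        rcases (Nat.Prime.dvd_mul hp).mp h5' with h | h
        · have := (Nat.prime_dvd_prime_iff_eq hp Nat.prime_two).mp (hp.dvd_of_dvd_pow h)
          exact hp2 this
        · have := (Nat.prime_dvd_prime_iff_eq hp Nat.prime_three).mp h
          exact hp3 this
  push_cast
  exact hcop1.pow_left

end Fermat.Agent.S59lib.LGC3
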