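/-
S59lib / LGC3 / Unram3  (helper2) — Project I, item P3-d: LGC at `p = 3`.

**`X_H(N) → X₀(N)` is unramified** without `gcd(e, 6) = 1`: helper9's `S43lib.Igusa.dvd_ord_of_eigen`
with the hypothesis "`ψ` kills the classes of the elements of finite order of `Γ₀(N)`" (`htor`) in place of
`Nat.Coprime e 6` (which was used for exactly this), and the proof that `Γ₀(N)` has NO elements of finite
order other than `±1` when `4 ∣ N` or `9 ∣ N` — the case of the LGC-D level `N = 4 N₀ T'² v`.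
-/
import Mathlib
import Fermat.Agent.S43lib.Igusa.Unram
import Fermat.Agent.S48lib.X1.Kummer.Main

set_option autoImplicit false
set_option linter.unusedSectionVars false
set_option linter.unusedVariables false
set_option linter.style.haveILetI false

noncomputable section

namespace Fermat.Agent.S59lib.LGC3

open UpperHalfPlane hiding I
open scoped MatrixGroups
open Polynomial ModularCurve IntermediateField CongruenceSubgroup AlgebraicCurve
open Fermat.Agent.ProgramR Fermat.Agent.ProgramR.QExp Fermat.Agent.ProgramR.BarField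
open Fermat.Agent.ProgramR.ES
open Fermat.Agent.S29lib.H Fermat.Agent.S29lib.K3 Fermat.Agent.S29lib.D
open Fermat.Agent.S48lib.X1 Fermat.Agent.S48lib.X1.Wp Fermat.Agent.S48lib.X1.HeckeJ
open Fermat.Agent.S43lib.Igusa

attribute [local instance] FractionRing.liftAlgebra
attribute [local instance] Genus.cosetFintype

local notation "Qb" => AlgebraicClosure ℚ

/-! ### no torsion in `Γ₀(N)` modulo `±1` when `4 ∣ N` or `9 ∣ N` -/

theorem no_root_four (a : ZMod 4) (τ : ZMod 4) (hτ : τ = 0 ∨ τ = 1 ∨ τ = -1) :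
    a ^ 2 - τ * a + 1 ≠ 0 := by
  rcases hτ with rfl | rfl | rfl <;> revert a <;> decide

theorem no_root_nine (a : ZMod 9) (τ : ZMod 9) (hτ : τ = 0 ∨ τ = 1 ∨ τ = -1) :
    a ^ 2 - τ * a + 1 ≠ 0 := by
  rcases hτ with rfl | rfl | rfl <;> revert a <;> decide

/-- an element of finite order of `Γ₀(N)` is `±1` when `4 ∣ N` or `9 ∣ N` -/
theorem eq_one_or_neg_one_of_pow_twelve_of_dvd {N : ℕ} (h49 : 4 ∣ N ∨ 9 ∣ N) {γ : SL(2, ℤ)}
    (hγ : γ ∈ Gamma0 N) (h12 : γ ^ 12 = 1) : γ = 1 ∨ γ = -1 := by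
  rcases Fermat.Agent.S48lib.X1.Kummer.eq_or_trace_of_pow_twelve γ h12 with h | h | htr
  · exact Or.inl h
  · exact Or.inr h
  · exfalso
    have hc : (N : ℤ) ∣ γ 1 0 := by
      rw [Gamma0_mem] at hγ
      exact (ZMod.intCast_zmod_eq_zero_iff_dvd _ _).mp hγ
    have hdet : γ 0 0 * γ 1 1 - γ 0 1 * γ 1 0 = 1 := by
      have := γ.det_coe
      rwa [Matrix.det_fin_two] at this
    -- `a² - τ a + 1 ≡ 0` modulo `N`, `τ = a + d`
    have key : (N : ℤ) ∣ γ 0 0 ^ 2 - (γ 0 0 + γ 1 1) * γ 0 0 + 1 := by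
      obtain ⟨c', hc'⟩ := hc
      refine ⟨-(γ 0 1 * c'), ?_⟩
      rw [hc'] at hdet
      linear_combination -hdet
    rcases h49 with h4 | h9
    · have k4 : ((4 : ℕ) : ℤ) ∣ γ 0 0 ^ 2 - (γ 0 0 + γ 1 1) * γ 0 0 + 1 :=
        (Int.natCast_dvd_natCast.mpr h4).trans key
      have := (ZMod.intCast_zmod_eq_zero_iff_dvd _ 4).mpr k4
      push_cast at this
      refine no_root_four ((γ 0 0 : ℤ) : ZMod 4) (((γ 0 0 : ℤ) : ZMod 4) + ((γ 1 1 : ℤ) : ZMod 4)) ?_
        this
      rcases htr with h0 | h0 | h0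
      · left
        have := congrArg (fun t : ℤ => (t : ZMod 4)) h0
        simpa using this
      · right; left
        have := congrArg (fun t : ℤ => (t : ZMod 4)) h0
        simpa using this
      · right; right
        have := congrArg (fun t : ℤ => (t : ZMod 4)) h0
        simpa using this
    · have k9 : ((9 : ℕ) : ℤ) ∣ γ 0 0 ^ 2 - (γ 0 0 + γ 1 1) * γ 0 0 + 1 :=
        (Int.natCast_dvd_natCast.mpr h9).trans key
      have := (ZMod.intCast_zmod_eq_zero_iff_dvd _ 9).mpr k9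
      push_cast at this
      refine no_root_nine ((γ 0 0 : ℤ) : ZMod 9) (((γ 0 0 : ℤ) : ZMod 9) + ((γ 1 1 : ℤ) : ZMod 9)) ?_
        this
      rcases htr with h0 | h0 | h0
      · left
        have := congrArg (fun t : ℤ => (t : ZMod 9)) h0
        simpa using this
      · right; left
        have := congrArg (fun t : ℤ => (t : ZMod 9)) h0
        simpa using this
      · right; right
        have := congrArg (fun t : ℤ => (t : ZMod 9)) h0
        simpa using this

variable {N : ℕ} [NeZero N]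

set_option quotPrecheck false in
local notation "FB1" => ↥(laurentBaseChange Qb (F1 N))

set_option quotPrecheck false in
local notation "FB0" => ↥(laurentBaseChange Qb (modularFunctionFieldFull N))

/-! ### the main theorem, with the torsion hypothesis -/

set_option maxHeartbeats 1000000 in
/-- **unramifiedness, over `ℂ`** -/
theorem nDivF_of_eigen_tor {e : ℕ} (he : 0 < e) (ψ : (ZMod N)ˣ →* Qbˣ)
    (hψ : ∀ u, ψ u ^ e = 1)
    (hpar : ∀ γ : Gamma0 N, IsPar (γ : SL(2, ℤ)) → ψ (gammaUnit N γ) = 1)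
    (htor : ∀ γ : Gamma0 N, (γ : SL(2, ℤ)) ^ 12 = 1 → ψ (gammaUnit N γ) = 1)
    {x : FB1} (hx : x ≠ 0)
    (heig : ∀ u : (ZMod N)ˣ, diaU u x = algebraMap Qb FB1 ((ψ u : Qbˣ) : Qb) * x)
    {f : Fermat.Agent.S29lib.K3.Fan N}
    (hf : inclFan N f = (isAnModel_F1 (M := N)).toFunField (qbarEmb : Qb →+* ℂ) x ^ e) :
    NDivF N e f := by
  set k := (isAnModel_F1 (M := N)).toFunField (qbarEmb : Qb →+* ℂ) x with hk
  have hk0 : k ≠ 0 := (_root_.map_ne_zero _).mpr hx
  obtain ⟨a, p, hp, hpa⟩ := exists_integral_multiple (pmGamma1 N) k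
  have ha0 : a ≠ 0 := by
    rintro rfl
    rw [map_zero] at hpa
    exact mul_ne_zero (algebraMap_poly_ne_zero _ hp) hk0 hpa
  have hsm := apply_smul_eigen ψ heig hpa
  -- `G = a ^ e`
  have hGW : IsWH0 (Gamma0 N) (a ^ e : WH0 (pmGamma1 N)).1 :=
    { mdiff := (a ^ e : WH0 (pmGamma1 N)).2.mdiff
      smul_eq := by
        intro γ hγ z
        show (a.1 ^ e) (γ • z) = (a.1 ^ e) z
        rw [Pi.pow_apply, Pi.pow_apply, hsm ⟨γ, hγ⟩ z, mul_pow, ← map_pow,
          ← Units.val_pow_eq_pow_val, hψ, Units.val_one, map_one, one_mul]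
      exists_bdd := (a ^ e : WH0 (pmGamma1 N)).2.exists_bdd }
  set G : Bn N := ⟨(a ^ e : WH0 (pmGamma1 N)).1, hGW⟩ with hG
  have hinclG : inclWH0 (pmGamma1_le_Gamma0 N) G = a ^ e := Subtype.ext rfl
  have hG0 : G ≠ 0 := by
    intro h0
    have : a ^ e = 0 := by rw [← hinclG, h0, map_zero]
    exact ha0 (pow_eq_zero_iff he.ne' |>.mp this)
  -- the root datum
  let R : RootData N e G :=
    { y := WH0.toHol (pmGamma1 N) a
      pow_eq := by
        apply Hol.ext
        intro z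
        rfl
      χ := chiOf ψ
      smul_eq := fun γ z => hsm γ z }
  have hχe : ∀ γ : Gamma0 N, chiOf ψ γ ^ e = 1 := by
    intro γ
    apply Units.ext
    rw [Units.val_pow_eq_pow_val, coe_chiOf, ← map_pow, ← Units.val_pow_eq_pow_val, hψ,
      Units.val_one, map_one, Units.val_one]
  have hkill_tor : ∀ γ : Gamma0 N, (γ : SL(2, ℤ)) ^ 12 = 1 → R.χ γ = 1 := by
    intro γ hγ
    show chiOf ψ γ = 1
    apply Units.ext
    rw [coe_chiOf, htor γ hγ, Units.val_one, map_one, Units.val_one]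
  have hkill_par : ∀ γ : Gamma0 N, IsPar (γ : SL(2, ℤ)) → R.χ γ = 1 := by
    intro γ hγ
    show chiOf ψ γ = 1
    apply Units.ext
    rw [coe_chiOf, hpar γ hγ, Units.val_one, map_one, Units.val_one]
  have hfin := (ellInput N he).dvd G hG0 R hkill_tor
  have hinf := R.dvd_ordV_inf_of_χ hG0 he hkill_par
  have hND : NDivF N e (toFan N G) := (nDivF_iff N e _).mpr ⟨hfin, hinf⟩
  -- `toFan G = f * (toFan p(j)) ^ e`
  set Pj : Bn N := algebraMap (Polynomial ℂ) (Bn N) p with hPj
  have hPj0 : toFan N Pj ≠ 0 :=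
    toFan_ne_zero N (fun h0 => hp (WH0.algebraMap_poly_injective (Gamma0 N)
      (h0.trans (map_zero _).symm)))
  have hf0 : f ≠ 0 := by
    rintro rfl
    rw [map_zero] at hf
    exact pow_ne_zero e hk0 hf.symm
  have hrel : toFan N G = f * toFan N Pj ^ e := by
    apply (inclFan N).injective
    rw [map_mul, map_pow, inclFan_toFan, inclFan_toFan, hinclG, hf, map_pow, ← hpa, mul_pow]
    have h1 : algebraMap (WH0 (pmGamma1 N)) (WH0.FunField (pmGamma1 N))
        (inclWH0 (pmGamma1_le_Gamma0 N) Pj) =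
        algebraMap (Polynomial ℂ) (WH0.FunField (pmGamma1 N)) p := by
      rw [IsScalarTower.algebraMap_apply (Polynomial ℂ) (WH0 (pmGamma1 N))
        (WH0.FunField (pmGamma1 N))]
      congr 1
      apply Subtype.ext
      funext z
      rw [inclWH0_apply, WH0.algebraMap_poly_apply, WH0.algebraMap_poly_apply]
    rw [h1]
    ring
  rw [hrel] at hND
  exact nDivF_of_mul_pow hf0 hPj0 hND

/-- **unramifiedness**: `e ∣ ord_P (x ^ e)` at every place `P` of `FBar(N)`, for an eigenvector `x`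
of the diamonds with a character killing the parabolic classes and the classes of finite order -/
theorem dvd_ord_of_eigen_tor {e : ℕ} (he : 0 < e) (ψ : (ZMod N)ˣ →* Qbˣ)
    (hψ : ∀ u, ψ u ^ e = 1)
    (hpar : ∀ γ : Gamma0 N, IsPar (γ : SL(2, ℤ)) → ψ (gammaUnit N γ) = 1)
    (htor : ∀ γ : Gamma0 N, (γ : SL(2, ℤ)) ^ 12 = 1 → ψ (gammaUnit N γ) = 1)
    {x : FB1} (hx : x ≠ 0)
    (heig : ∀ u : (ZMod N)ˣ, diaU u x = algebraMap Qb FB1 ((ψ u : Qbˣ) : Qb) * x)
    {u₀ : FB0} (hu₀ : (u₀ : LaurentSeries Qb) = (x : LaurentSeries Qb) ^ e)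
    (P : Place Qb FB0) : (e : ℤ) ∣ P.ord u₀ := by
  letI : Algebra Qb ℂ := (qbarEmb : Qb →+* ℂ).toAlgebra
  have hf : inclFan N (ΦF N u₀) =
      (isAnModel_F1 (M := N)).toFunField (qbarEmb : Qb →+* ℂ) x ^ e := by
    apply qExpFFW_injective (pmGamma1 N) 1 T_mem_pmGamma1
    rw [qExpFFW_inclFan, map_pow, IsAnModel.qExpFFW_toFunField]
    have h1 : BarField.qExpFF N (ΦF N u₀) =
        coeffMap (algebraMap Qb ℂ) (u₀ : LaurentSeries Qb) := qExpFF_ΦF N u₀
    rw [h1, hu₀, map_pow]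
    rfl
  have hND := nDivF_of_eigen_tor he ψ hψ hpar htor hx heig hf
  obtain ⟨P', hP'⟩ := exists_place_above_Fan N P
  rw [← hP' u₀]
  exact hND P'

end Fermat.Agent.S59lib.LGC3
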