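/-
S59lib / LGC3 / Cover3  (helper2) — Project I, item P3-d: LGC at `p = 3`.

**The Kummer cover `X_H(M q) → X₀(M q)` and LGC on torsion for every ODD `p`** (`p ≠ 2` instead of
`5 ≤ p`), when `4 ∣ M q` or `9 ∣ M q`: re-issue of `S43lib/LGC/KCM/{Cover,Final,Tors,ExistsPsi}` with
* `unram_uOne_tor`  : unramifiedness from `Unram3.dvd_ord_of_eigen_tor` (no torsion in `Γ₀(M q)/±1`);
* `node_coprime_odd` (`Node3`) in place of `node_coprime`.
-/
import Mathlib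
import Fermat.Agent.S43lib.LGC.KCM.ExistsPsi
import Fermat.Agent.S59lib.LGC3.Unram3
import Fermat.Agent.S59lib.LGC3.Node3

set_option autoImplicit false
set_option linter.unusedSectionVars false
set_option linter.style.haveILetI false

noncomputable section

namespace Fermat.Agent.S59lib.LGC3

open ModularCurve Polynomial AlgebraicCurve CongruenceSubgroup IntermediateField
open scoped MatrixGroups
open Fermat.Agent.ProgramR Fermat.Agent.ProgramR.BarField Fermat.Agent.S18lib Fermat.Agent.LSb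
open Fermat.Agent.ProgramR.ES (IsPar)
open Fermat.Agent.S48lib.X1 Fermat.Agent.S48lib.X1.HeckeJ
open Fermat.Agent.S43lib.Igusa Fermat.Agent.S43lib.LGC.KC Fermat.Agent.S43lib.LGC.KCM

local notation "Qb" => AlgebraicClosure ℚ

variable {M q : ℕ} [NeZero M] [NeZero q] [hq : Fact q.Prime]
variable {A : ValuationSubring (AlgebraicClosure ℚ)}

local notation "kA" => IsLocalRing.ResidueField A

variable {D1 : GaussDatum A (FBar (M * q)) (FRes A M)}
variable {ψ : MulChar (ZMod q) Qb} {e p t : ℕ}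

/-! ### unramifiedness in characteristic zero -/

/-- `ψ` kills the classes of the elements of finite order of `Γ₀(M q)` (they are `±1`) -/
theorem psiU_tor (h49 : 4 ∣ M * q ∨ 9 ∣ M * q) (heven : ψ (-1) = 1) (γ : Gamma0 (M * q))
    (hγ : (γ : SL(2, ℤ)) ^ 12 = 1) : psiU M q ψ (gammaUnit (M * q) γ) = 1 := by
  apply Units.ext
  rw [coe_psiU, psiN, coe_gammaUnit, map_intCast, Units.val_one]
  rcases eq_one_or_neg_one_of_pow_twelve_of_dvd h49 γ.2 hγ with h | h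
  · rw [h]
    simp
  · rw [h]
    simp [heven]

/-- **`X_H → X₀(M q)` is unramified**: `e ∣ ord_P u₁` at every place -/
theorem unram_uOne_tor (h49 : 4 ∣ M * q ∨ 9 ∣ M * q) (H : IsOrd ψ e) (hψ : ψ ≠ 1)
    (heven : ψ (-1) = 1) (P : Place Qb (FBar (M * q))) :
    (e : ℤ) ∣ P.ord (uOne (M := M) H hψ heven) := by
  refine dvd_ord_of_eigen_tor H.pos (psiU M q ψ) H.psiU_pow (psiU_par heven)
    (psiU_tor h49 heven)
    (x := sharpB (one_lt_level M q) (dvd_level M q) hψ heven) ?_ ?_ ?_ P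
  · intro h0
    have := congrArg (fun x : ↥(laurentBaseChange Qb (F1 (M * q))) => (x : LaurentSeries Qb)) h0
    exact sharp_ne_zero q (chi_one ψ) this
  · intro u
    rw [diaU_sharpB, coe_psiU]
  · rfl

/-! ### the residue extensions -/

section Nodes

variable [HasPrincipalDivisors (IsLocalRing.ResidueField A) (FRes A M)]

/-- `ū₁` is not a `p`-th power -/
theorem ubarOne_not_pow_odd (h5 : 5 ≤ q) (hqM : ¬ q ∣ M)
    (hA : A.LiesOverPrime q) (h1 : Old.IsGaussOne D1) (hp : p.Prime) (hp2 : p ≠ 2) (ht : t ≠ 0)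
    (H : IsOrd ψ (p ^ t)) (hψ : ψ ≠ 1) (heven : ψ (-1) = 1) {gM : ℕ}
    (hFk : IsCurveOfGenus kA (FRes A M) gM) (b : FRes A M) :
    b ^ p ≠ ubarOne D1 H hψ heven := by
  intro hb
  have c : Fin (Unit.modS D1) := ⟨0, Unit.modS_pos hA h1 hFk⟩
  have hcop := node_coprime_odd h5 hqM hA h1 hp hp2 ht H hψ heven (S36lib.Count.modX₂_mem' c)
  rw [← ubarOne, ← hb, Cech.ord_pow] at hcop
  have hcop1 : IsCoprime (p : ℤ) ((p : ℤ) * (Unit.modX₂ D1 c).ord b) := by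
    have : IsCoprime ((p : ℤ) ^ t) ((p : ℤ) * (Unit.modX₂ D1 c).ord b) := by
      have h := hcop
      push_cast at h
      exact h
    exact (IsCoprime.pow_left_iff (Nat.pos_of_ne_zero ht)).mp this
  have hunit : IsUnit (p : ℤ) := hcop1.isUnit_of_dvd' dvd_rfl (Dvd.intro _ rfl)
  have := Int.isUnit_iff.mp hunit
  have := hp.one_lt
  omega

theorem irreducible_ubarOne_odd (h5 : 5 ≤ q) (hqM : ¬ q ∣ M)
    (hA : A.LiesOverPrime q) (h1 : Old.IsGaussOne D1) (hp : p.Prime) (hp2 : p ≠ 2) (ht : t ≠ 0)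
    (H : IsOrd ψ (p ^ t)) (hψ : ψ ≠ 1) (heven : ψ (-1) = 1) {gM : ℕ}
    (hFk : IsCurveOfGenus kA (FRes A M) gM) :
    Irreducible (X ^ (p ^ t) - C (ubarOne D1 H hψ heven) : (FRes A M)[X]) :=
  irreducible_X_pow_sub_C_of_ord hp hp2 ht
    (ubarOne_not_pow_odd h5 hqM hA h1 hp hp2 ht H hψ heven hFk)

/-- the Kummer lift on the first component -/
theorem kummerLift_one_odd (h5 : 5 ≤ q) (hqM : ¬ q ∣ M)
    (hA : A.LiesOverPrime q) (h1 : Old.IsGaussOne D1) (hp : p.Prime) (hp2 : p ≠ 2) (ht : t ≠ 0)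
    (H : IsOrd ψ (p ^ t)) (hψ : ψ ≠ 1) (heven : ψ (-1) = 1) {gM : ℕ}
    (hFk : IsCurveOfGenus kA (FRes A M) gM) :
    KummerLift D1 (p ^ t) (uOne (M := M) H hψ heven) (hSh (M := M) hψ heven)
      (kumGen (p ^ t) (ubarOne D1 H hψ heven)) where
  gen := isKummerGen_hSh H hψ heven
  u_mem := uOne_mem h1 H hψ heven
  genbar := isKummerGen_kumGen H.pos
    (irreducible_ubarOne_odd h5 hqM hA h1 hp hp2 ht H hψ heven hFk)

/-- the Kummer lift on the second component -/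
theorem kummerLift_two_odd (h5 : 5 ≤ q) (hqM : ¬ q ∣ M)
    (hA : A.LiesOverPrime q) (h1 : Old.IsGaussOne D1) (hp : p.Prime) (hp2 : p ≠ 2) (ht : t ≠ 0)
    (H : IsOrd ψ (p ^ t)) (hψ : ψ ≠ 1) (heven : ψ (-1) = 1) {gM : ℕ}
    (hFk : IsCurveOfGenus kA (FRes A M) gM) :
    KummerLift (Unit.modD2 hqM D1) (p ^ t) (uTwo hqM H hψ heven) (hTwo hqM hψ heven)
      (kumGen (p ^ t) (ubarTwo hqM D1 H hψ heven)) where
  gen := isKummerGen_hTwo hqM H hψ heven
  u_mem := uTwo_mem hqM h1 (Unit.isGaussTwo_modD2 hqM D1) H hψ heven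
  genbar := isKummerGen_kumGen H.pos (by
    show Irreducible (X ^ (p ^ t) - C (ubarTwo hqM D1 H hψ heven) : (FRes A M)[X])
    rw [ubarTwo_eq]
    exact irreducible_ubarOne_odd h5 hqM hA h1 hp hp2 ht H.inv (inv_ne_one hψ) (inv_even heven)
      hFk)

/-- **the Kummer cover datum of `X_H(M q) → X₀(M q)`**, `p` odd, `4 ∣ M q` or `9 ∣ M q` -/
theorem exists_isKummerCover_odd (h5 : 5 ≤ q) (hqM : ¬ q ∣ M) (h49 : 4 ∣ M * q ∨ 9 ∣ M * q)
    (hA : A.LiesOverPrime q) (h1 : Old.IsGaussOne D1) (hp : p.Prime)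
    (hp2 : p ≠ 2) (ht : t ≠ 0) (H : IsOrd ψ (p ^ t)) (hψ : ψ ≠ 1) (heven : ψ (-1) = 1) {gM : ℕ}
    (hFk : IsCurveOfGenus kA (FRes A M) gM) :
    ∃ ζ : A, IsKummerCover D1 (Unit.modD2 hqM D1) (Unit.modX₁ hA D1) (Unit.modX₂ D1) (p ^ t)
      (uOne (M := M) H hψ heven) (uTwo hqM H hψ heven) (hSh (M := M) hψ heven)
      (hTwo hqM hψ heven) (kumGen (p ^ t) (ubarOne D1 H hψ heven))
      (kumGen (p ^ t) (ubarTwo hqM D1 H hψ heven)) ζ := by
  obtain ⟨ζ, hζ1, hζ2, hζ3⟩ := exists_zeta hA H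
  refine ⟨ζ, ?_⟩
  exact
    { lift₁ := kummerLift_one_odd h5 hqM hA h1 hp hp2 ht H hψ heven hFk
      lift₂ := kummerLift_two_odd h5 hqM hA h1 hp hp2 ht H hψ heven hFk
      ratio := exists_ratio hqM hψ heven
      red_ne₁ := redF_uOne_ne_zero h1 H hψ heven
      red_ne₂ := by
        have := ubarTwo_eq (D1 := D1) hqM H hψ heven
        rw [ubarTwo] at this
        rw [this]
        exact redF_uOne_ne_zero h1 H.inv (inv_ne_one hψ) (inv_even heven)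
      zeta_pow := hζ1
      zeta_prim := hζ2
      zeta_prim_res := hζ3
      e_ne_zero := H.natCast_ne_zero hA
      unram := unram_uOne_tor h49 H hψ heven
      node₁ := fun c =>
        node_coprime_odd h5 hqM hA h1 hp hp2 ht H hψ heven (S36lib.Count.modX₁_mem hA h1 c)
      node₂ := fun c => by
        have := ubarTwo_eq (D1 := D1) hqM H hψ heven
        rw [ubarTwo] at this
        rw [this]
        exact node_coprime_odd h5 hqM hA h1 hp hp2 ht H.inv (inv_ne_one hψ) (inv_even heven)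
          (S36lib.Count.modX₂_mem' c) }

/-- the residue curves -/
theorem exists_isCurveOfGenus_kumOne_odd (h5 : 5 ≤ q) (hqM : ¬ q ∣ M) (hA : A.LiesOverPrime q)
    (h1 : Old.IsGaussOne D1) (hp : p.Prime) (hp2 : p ≠ 2) (ht : t ≠ 0) (H : IsOrd ψ (p ^ t))
    (hψ : ψ ≠ 1) (heven : ψ (-1) = 1) {gM : ℕ} (hFk : IsCurveOfGenus kA (FRes A M) gM) :
    ∃ g' : ℕ, IsCurveOfGenus kA ↥(kumField (p ^ t) (ubarOne D1 H hψ heven)) g' :=
  exists_isCurveOfGenus_kum hqM hA (H.natCast_ne_zero hA) H.pos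
    (redF_uOne_ne_zero h1 H hψ heven)
    (irreducible_ubarOne_odd h5 hqM hA h1 hp hp2 ht H hψ heven hFk)

theorem exists_isCurveOfGenus_kumTwo_odd (h5 : 5 ≤ q) (hqM : ¬ q ∣ M) (hA : A.LiesOverPrime q)
    (h1 : Old.IsGaussOne D1) (hp : p.Prime) (hp2 : p ≠ 2) (ht : t ≠ 0) (H : IsOrd ψ (p ^ t))
    (hψ : ψ ≠ 1) (heven : ψ (-1) = 1) {gM : ℕ} (hFk : IsCurveOfGenus kA (FRes A M) gM) :
    ∃ g' : ℕ, IsCurveOfGenus kA ↥(kumField (p ^ t) (ubarTwo hqM D1 H hψ heven)) g' := by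
  rw [ubarTwo_eq]
  exact exists_isCurveOfGenus_kumOne_odd h5 hqM hA h1 hp hp2 ht H.inv (inv_ne_one hψ)
    (inv_even heven) hFk

end Nodes

/-! ### LGC on torsion -/

/-- **LGC on torsion** for the curve `X_H(M q)`, `H = ker ψ`, `ψ` of order `p^t`, `p` odd. -/
theorem lgcTors_odd (h5 : 5 ≤ q) (hqM : ¬ q ∣ M) (h49 : 4 ∣ M * q ∨ 9 ∣ M * q)
    (hA : A.LiesOverPrime q) (hp : p.Prime)
    (hp2 : p ≠ 2) (hpq : p ≠ q) (ht : t ≠ 0) (H : IsOrd ψ (p ^ t)) (hψ : ψ ≠ 1)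
    (heven : ψ (-1) = 1) [HasPrincipalDivisors Qb (FBH (psiU M q ψ))] {n : ℕ}
    (hn : (n : kA) ≠ 0) : LGCTors M q ψ A n := by
  haveI : NeZero (M * q) := ⟨Nat.mul_ne_zero (NeZero.ne M) (NeZero.ne q)⟩
  obtain ⟨g₀, hF₀, -⟩ := Gin0.exists_isCurveOfGenus_FBar (M * q)
  obtain ⟨g', hFM, -⟩ := Gin0.exists_isCurveOfGenus_FBar M
  obtain ⟨gM, hFk⟩ := S37lib.B3.exists_isCurveOfGenus_FRes A M hqM hA
  haveI : HasPrincipalDivisors Qb (FBar (M * q)) := hF₀.hasPrincipalDivisors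
  haveI : HasPrincipalDivisors Qb (FBar M) := hFM.hasPrincipalDivisors
  haveI : HasPrincipalDivisors kA (FRes A M) := hFk.hasPrincipalDivisors
  have h1 := Val.isGaussOne_gaussOne M q A hqM hA
  obtain ⟨ζ, Hc⟩ := exists_isKummerCover_odd h5 hqM h49 hA h1 hp hp2 ht H hψ heven hFk
  obtain ⟨g, hF⟩ := exists_isCurveOfGenus_FH (M := M) H hψ heven
  obtain ⟨g₁', hK₁⟩ := exists_isCurveOfGenus_kumOne_odd h5 hqM hA h1 hp hp2 ht H hψ heven hFk
  obtain ⟨g₂', hK₂⟩ := exists_isCurveOfGenus_kumTwo_odd h5 hqM hA h1 hp hp2 ht H hψ heven hFk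
  haveI := hK₁.hasPrincipalDivisors
  haveI := hK₂.hasPrincipalDivisors
  obtain ⟨x₁', x₂', hx₁', hx₂', C⟩ :=
    kcm_nodalCtx h5 hqM hA h1 H hψ heven Hc hF₀ hFk hF hK₁ hK₂
  have C₀ := Unit.modNodalCtx_five_le h5 hqM hA h1 hF₀ hFk
  exact lgcTors_of_cover hqM hA H (not_dvd_prime_pow hp hpq) hψ heven h1
    (fun x hx => Val.gaussOne_O_le M q A hqM hA hx) Hc C₀ hx₁' hx₂' C hn

/-- **`lgcTors_odd` at a prime power**, with the instance supplied. -/
theorem lgcTors_pow_odd (h5 : 5 ≤ q) (hqM : ¬ q ∣ M) (h49 : 4 ∣ M * q ∨ 9 ∣ M * q)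
    (hA : A.LiesOverPrime q) (hp : p.Prime) (hp2 : p ≠ 2) (hpq : p ≠ q) (ht : t ≠ 0)
    (H : IsOrd ψ (p ^ t)) (hψ : ψ ≠ 1) (heven : ψ (-1) = 1) (k : ℕ) :
    ∃ _ : HasPrincipalDivisors Qb (FBH (psiU M q ψ)), LGCTors M q ψ A (p ^ k) := by
  obtain ⟨g, hF⟩ := exists_isCurveOfGenus_FH (M := M) H hψ heven
  refine ⟨hF.hasPrincipalDivisors, ?_⟩
  haveI := hF.hasPrincipalDivisors
  exact lgcTors_odd h5 hqM h49 hA hp hp2 hpq ht H hψ heven
    (natCast_residue_ne_zero hA (not_dvd_prime_pow hp hpq))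

end Fermat.Agent.S59lib.LGC3
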