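/-
S59lib / LGC3 / KGD3  (helper2) — Project I, item P3-d: LGC at `p = 3`.

Re-issue, for every ODD `p` (`p ≠ 2` instead of `5 ≤ p`), of the pass-through chain
`S43lib/LGC/D/{KGDWords,WordsVKgd,KGDMain,FinalAux}` (helper9, helper8) on top of `Cover3.lgcTors_pow_odd`:
`kgd_words_odd`, `wordsV_kgd_psi_odd`, `wordsV_kgd_kappa_odd`, `trace_inertia_kgd_odd`,
`trace_inertia_kgd_W_odd`.  The proofs are those of the originals, verbatim.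
-/
import Mathlib
import Fermat.Agent.S43lib.LGC.D.FinalAux
import Fermat.Agent.S59lib.LGC3.Cover3

set_option autoImplicit false
set_option linter.unusedSectionVars false
set_option linter.unusedVariables false
set_option linter.style.haveILetI false

noncomputable section

namespace Fermat.Agent.S59lib.LGC3

open Matrix Polynomial IsLocalRing AlgebraicCurve ModularCurve
open Fermat.Agent.S48lib.X1 Fermat.Agent.S48lib.X1.Wp Fermat.Agent.S48lib.X1.Gal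
open Fermat.Agent.S43lib.B0.EndBlock Fermat.Agent.S16lib.LG
open Fermat.Agent.S43lib.Igusa Fermat.Agent.S43lib.LGC.KCM Fermat.Agent.S43lib.LGC.D
open scoped MatrixGroups

local notation "Qb" => AlgebraicClosure ℚ
local notation "GQ" => (AlgebraicClosure ℚ ≃ₐ[ℚ] AlgebraicClosure ℚ)

section Words

variable {M q : ℕ} [NeZero M] [NeZero q] [hq : Fact q.Prime]
variable {A : ValuationSubring (AlgebraicClosure ℚ)}

set_option maxHeartbeats 4000000 in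
/-- **LGC-D (A)**: the words on the Kummer--Galois data of `J_1(M q)[p^k]`, unconditionally. -/
theorem kgd_words_odd {ψ : MulChar (ZMod q) Qb} {p t : ℕ} [NeZero p] (h5 : 5 ≤ q) (hqM : ¬ q ∣ M)
    (hA : A.LiesOverPrime q) (hp : p.Prime) (hp2 : p ≠ 2) (hpq : p ≠ q) (ht : t ≠ 0)
    (H : IsOrd ψ (p ^ t)) (hψ : ψ ≠ 1) (heven : ψ (-1) = 1)
    (h49 : 4 ∣ M * q ∨ 9 ∣ M * q) (hN : 4 ≤ M * q) (k : ℕ)
    {τ τ' : GQ} (hτ : τ ∈ A.inertiaSubgroupIn ℚ) (hτ' : τ' ∈ A.inertiaSubgroupIn ℚ)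
    (γ : Module.End (ZMod (p ^ k)) (kgd (p ^ k) h49 hN).V)
    (hγ : (∃ τ'' ∈ A.inertiaSubgroupIn ℚ, γ = (kgd (p ^ k) h49 hN).ρ τ'') ∨
      ∃ d' : (ZMod (M * q))ˣ, γ = (kgd (p ^ k) h49 hN).diam d') :
    (γ - 1) * ((kgd (p ^ k) h49 hN).ρ τ' - 1) *
        ((kgd (p ^ k) h49 hN).ρ τ - (kgd (p ^ k) h49 hN).diam (cycU (M * q) τ)) *
        kgdNm (kgd (p ^ k) h49 hN) (psiU M q ψ) = 0 ∧
      (γ - 1) * ((kgd (p ^ k) h49 hN).ρ τ - (kgd (p ^ k) h49 hN).diam (cycU (M * q) τ)) *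
        ((kgd (p ^ k) h49 hN).ρ τ' - 1) * kgdNm (kgd (p ^ k) h49 hN) (psiU M q ψ) = 0 := by
  obtain ⟨hPD, hL⟩ := lgcTors_pow_odd (M := M) (A := A) h5 hqM h49 hA hp hp2 hpq ht H hψ heven k
  haveI := hPD
  exact kgd_words_of_lgcTors₁ h49 hN (lgcTors₁_of_lgcTors (NeZero.ne (p ^ k)) hL) hτ hτ' γ hγ


set_option maxHeartbeats 4000000 in
/-- **`WordsV` for `kgd`**, `H = ker (ψ ∘ mod q)`, `ψ : MulChar (ZMod q) ℚ̄` of exact order `p^t`. -/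
theorem wordsV_kgd_psi_odd {ψ : MulChar (ZMod q) Qb} {p t : ℕ} [NeZero p] (h5 : 5 ≤ q) (hqM : ¬ q ∣ M)
    (hA : A.LiesOverPrime q) (hp : p.Prime) (hp2 : p ≠ 2) (hpq : p ≠ q) (ht : t ≠ 0)
    (H : IsOrd ψ (p ^ t)) (hψ : ψ ≠ 1) (heven : ψ (-1) = 1)
    (h49 : 4 ∣ M * q ∨ 9 ∣ M * q) (hN : 4 ≤ M * q) (k : ℕ) :
    WordsV (kgd (p ^ k) h49 hN) (A.inertiaSubgroupIn ℚ : Set GQ) (cycU (M * q))
      (kerFin (psiU M q ψ)) := by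
  intro τ hτ τ' hτ' τ'' hτ'' y
  obtain ⟨h1, h2⟩ := kgd_words_odd (M := M) (A := A) h5 hqM hA hp hp2 hpq ht H hψ heven h49 hN k
    hτ hτ' ((kgd (p ^ k) h49 hN).ρ τ'') (Or.inl ⟨τ'', hτ'', rfl⟩)
  rw [← kgdNm_apply]
  constructor
  · have := congrArg (fun f : Module.End (ZMod (p ^ k)) (kgd (p ^ k) h49 hN).V => f y) h1
    simpa only [wordA, Module.End.mul_apply, LinearMap.zero_apply, mul_assoc] using this
  · have := congrArg (fun f : Module.End (ZMod (p ^ k)) (kgd (p ^ k) h49 hN).V => f y) h2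
    simpa only [wordB, Module.End.mul_apply, LinearMap.zero_apply, mul_assoc] using this

set_option maxHeartbeats 4000000 in
/-- **LGC-D (A), final**: `WordsV` for `kgd` and `H = ker (κ ∘ mod q)`, `κ` any character of
`(ℤ/q)ˣ` of exact order `p^t`, `t ≠ 0`. -/
theorem wordsV_kgd_kappa_odd {C : Type*} [CommGroup C] (κ : (ZMod q)ˣ →* C) {p t : ℕ} [NeZero p]
    (h5 : 5 ≤ q) (hqM : ¬ q ∣ M) (hA : A.LiesOverPrime q) (hp : p.Prime) (hp2 : p ≠ 2)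
    (hpq : p ≠ q) (ht : t ≠ 0) (hκ : ∀ a, κ a ^ (p ^ t) = 1) (hprim : ∃ a, orderOf (κ a) = p ^ t)
    (h49 : 4 ∣ M * q ∨ 9 ∣ M * q) (hN : 4 ≤ M * q) (k : ℕ) :
    WordsV (kgd (p ^ k) h49 hN) (A.inertiaSubgroupIn ℚ : Set GQ) (cycU (M * q))
      (kerFin (kappaU (M := M) κ)) := by
  obtain ⟨ψ, H, hker⟩ := exists_isOrd_of_orderOf κ (pow_pos hp.pos t) hκ hprim
  have h1 : 1 < p ^ t := Nat.one_lt_pow ht hp.one_lt
  have hψ : ψ ≠ 1 := H.ne_one h1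
  have hodd : Odd (p ^ t) := by
    apply Odd.pow
    rcases hp.eq_two_or_odd' with h | h
    · exact absurd h hp2
    · exact h
  have heven : ψ (-1) = 1 := even_of_isOrd_odd H hodd
  have hH : kerFin (kappaU (M := M) κ) = kerFin (psiU M q ψ) := by
    apply kerFin_congr
    intro u
    rw [kappaU_apply, ← hker, ← Units.val_eq_one]
    rfl
  rw [hH]
  exact wordsV_kgd_psi_odd h5 hqM hA hp hp2 hpq ht H hψ heven h49 hN k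


end Words

section Main

variable {𝒪 : Type} [CommRing 𝒪] [IsDomain 𝒪] [IsDiscreteValuationRing 𝒪] [CharZero 𝒪]
  [IsAdicComplete (maximalIdeal 𝒪) 𝒪]
variable {K : Type*} [Field K] [Algebra 𝒪 K] [IsFractionRing 𝒪 K]
variable {M q : ℕ} [NeZero M] [NeZero q] [hq : Fact q.Prime]

/-- **LGC-D on helper9's concrete data.** -/
theorem trace_inertia_kgd_odd {p : ℕ} [hpf : Fact p.Prime] (hp2 : p ≠ 2)
    (hp𝒪 : (p : 𝒪) ∈ maximalIdeal 𝒪) (h5 : 5 ≤ q) (hqM : ¬ q ∣ M) (hpq : p ≠ q)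
    (h49 : 4 ∣ M * q ∨ 9 ∣ M * q) (hN : 4 ≤ M * q)
    (S₀ : Finset ℕ) (hS₀ : ∀ ℓ : ℕ, ℓ.Prime → ℓ ∉ S₀ → ¬ ℓ ∣ M * q ∧ ℓ ≠ p)
    (ρ : GaloisRepAdic 𝒪) (hspan : Submodule.span 𝒪 (Set.range ρ.ρ) = ⊤) (τ : ℕ → 𝒪)
    (hρ : ∀ ℓ : ℕ, ℓ.Prime → ℓ ∉ S₀ → ∀ A : ValuationSubring Qb, A.LiesOverPrime ℓ →
      ∀ φ : GQ, A.IsFrobeniusAt φ ℓ →
        LinearMap.charpoly (ρ.ρ φ) = X ^ 2 - C (τ ℓ) * X + C (ℓ : 𝒪))
    (χq ηq : (ZMod q)ˣ →* 𝒪ˣ) (hη : ∀ d, ηq d * ηq d = χq d) (hχ1 : χq ≠ 1) {s : ℕ}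
    (hχpow : ∀ d, χq d ^ p ^ s = 1)
    (b : ℕ → 𝒪)
    (hb : ∀ ℓ : ℕ, ℓ.Prime → ℓ ∉ S₀ → ∀ d : (ZMod q)ˣ, (d : ZMod q) = (ℓ : ZMod q) →
      b ℓ = ((ηq d : 𝒪ˣ) : 𝒪) * τ ℓ)
    (φ : Additive (pmGamma1 (M * q)) →+ K) (hφ : φ ≠ 0)
    (hpar : ∀ γ : pmGamma1 (M * q), IsParTor (γ : SL(2, ℤ)) → φ (Additive.ofMul γ) = 0)
    (hT : ∀ ℓ : ℕ, ℓ.Prime → ℓ ∉ S₀ → ∀ γ : pmGamma1 (M * q),
      ∑ i, φ (Additive.ofMul (cTFun ℓ γ i)) = algebraMap 𝒪 K (b ℓ) * φ (Additive.ofMul γ))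
    (hd : ∀ (d : (ZMod (M * q))ˣ) (γ : pmGamma1 (M * q)),
      φ (Additive.ofMul (cdFun d γ)) =
        algebraMap 𝒪 K ((χq (ZMod.unitsMap (dvd_level M q) d) : 𝒪ˣ) : 𝒪) * φ (Additive.ofMul γ))
    {A : ValuationSubring Qb} (hA : A.LiesOverPrime q) {t : GQ} (ht : t ∈ A.inertiaSubgroupIn ℚ)
    (c : (ZMod q)ˣ) (hc : ∀ μ : Qb, μ ^ q = 1 → t μ = μ ^ (c : ZMod q).val) :
    ρ.trace t = ((ηq c : 𝒪ˣ) : 𝒪) + (((ηq c)⁻¹ : 𝒪ˣ) : 𝒪) := by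
  classical
  have hp : p.Prime := hpf.out
  haveI : NeZero p := ⟨hp.ne_zero⟩
  -- the exact order of `χq`
  obtain ⟨e, he0, hpow, hprim⟩ := exists_exact_order χq hp hχ1 hχpow
  -- the characters of level `M q`
  set χ : (ZMod (M * q))ˣ →* 𝒪ˣ := kappaU (M := M) χq with hχ
  set ηc : (ZMod (M * q))ˣ →* 𝒪ˣ := kappaU (M := M) ηq with hηc
  have hη' : ∀ d, ηc d * ηc d = χ d := fun d => hη _
  have hb' : ∀ ℓ : ℕ, ℓ.Prime → ℓ ∉ S₀ → ∀ d : (ZMod (M * q))ˣ,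
      (d : ZMod (M * q)) = (ℓ : ZMod (M * q)) → b ℓ = ((ηc d : 𝒪ˣ) : 𝒪) * τ ℓ := by
    intro ℓ hℓ hℓS d hd
    refine hb ℓ hℓ hℓS _ ?_
    rw [ZMod.unitsMap_def, Units.coe_map]
    show ZMod.castHom (dvd_level M q) (ZMod q) (d : ZMod (M * q)) = _
    rw [hd, map_natCast]
  -- the set `H`
  set H : Finset (ZMod (M * q))ˣ := kerFin χ with hH
  have hHne : H.Nonempty := kerFin_nonempty χ
  have hHχ : ∀ h ∈ H, χ h = 1 := fun h hh => (mem_kerFin χ h).1 hh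
  have hw : ∀ k : ℕ, WordsV (kgd (p ^ k) h49 hN) (A.inertiaSubgroupIn ℚ : Set GQ)
      (cycU (M * q)) H := fun k =>
    wordsV_kgd_kappa_odd χq h5 hqM hA hp hp2 hpq he0 hpow hprim h49 hN k
  have hfg : Group.FG (pmGamma1 (M * q)) :=
    Fermat.Agent.S48lib.X1.Forms.groupFG_of_finiteIndex (pmGamma1 (M * q))
  have key := trace_inertia_of_words (K := K) hp2 hp𝒪 hfg (fun k => kgd (p ^ k) h49 hN) S₀ hS₀ ρ
    hspan τ hρ χ ηc hη' b hb' φ hφ hpar (fun k ℓ hℓ hℓS γ => hT ℓ hℓ hℓS γ)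
    (fun k d γ => hd d γ) hq.out hpq.symm hA H hHne hHχ hw ht
  have hcyc : ZMod.unitsMap (dvd_level M q) (cycU (M * q) t) = c :=
    unitsMap_cycU_eq (M * q) (dvd_level M q) t c hc
  have hηt : ηc (cycU (M * q) t) = ηq c := by
    rw [hηc, kappaU_apply, hcyc]
  rw [key, hηt]


/-- **LGC-D on helper9's concrete data, vector valued homomorphism.** -/
theorem trace_inertia_kgd_W_odd {p : ℕ} [hpf : Fact p.Prime] (hp2 : p ≠ 2)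
    (hp𝒪 : (p : 𝒪) ∈ maximalIdeal 𝒪) (h5 : 5 ≤ q) (hqM : ¬ q ∣ M) (hpq : p ≠ q)
    (h49 : 4 ∣ M * q ∨ 9 ∣ M * q) (hN : 4 ≤ M * q)
    (S₀ : Finset ℕ) (hS₀ : ∀ ℓ : ℕ, ℓ.Prime → ℓ ∉ S₀ → ¬ ℓ ∣ M * q ∧ ℓ ≠ p)
    (ρ : GaloisRepAdic 𝒪) (hspan : Submodule.span 𝒪 (Set.range ρ.ρ) = ⊤) (τ : ℕ → 𝒪)
    (hρ : ∀ ℓ : ℕ, ℓ.Prime → ℓ ∉ S₀ → ∀ A : ValuationSubring Qb, A.LiesOverPrime ℓ →
      ∀ φ : GQ, A.IsFrobeniusAt φ ℓ →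
        LinearMap.charpoly (ρ.ρ φ) = X ^ 2 - C (τ ℓ) * X + C (ℓ : 𝒪))
    (χq ηq : (ZMod q)ˣ →* 𝒪ˣ) (hη : ∀ d, ηq d * ηq d = χq d) (hχ1 : χq ≠ 1) {s : ℕ}
    (hχpow : ∀ d, χq d ^ p ^ s = 1)
    (b : ℕ → 𝒪)
    (hb : ∀ ℓ : ℕ, ℓ.Prime → ℓ ∉ S₀ → ∀ d : (ZMod q)ˣ, (d : ZMod q) = (ℓ : ZMod q) →
      b ℓ = ((ηq d : 𝒪ˣ) : 𝒪) * τ ℓ)
    {W : Type*} [AddCommGroup W] [Module K W]
    (φ : Additive (pmGamma1 (M * q)) →+ W) (hφ : φ ≠ 0)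
    (hpar : ∀ γ : pmGamma1 (M * q), IsParTor (γ : SL(2, ℤ)) → φ (Additive.ofMul γ) = 0)
    (hT : ∀ ℓ : ℕ, ℓ.Prime → ℓ ∉ S₀ → ∀ γ : pmGamma1 (M * q),
      ∑ i, φ (Additive.ofMul (cTFun ℓ γ i)) = algebraMap 𝒪 K (b ℓ) • φ (Additive.ofMul γ))
    (hd : ∀ (d : (ZMod (M * q))ˣ) (γ : pmGamma1 (M * q)),
      φ (Additive.ofMul (cdFun d γ)) =
        algebraMap 𝒪 K ((χq (ZMod.unitsMap (dvd_level M q) d) : 𝒪ˣ) : 𝒪) • φ (Additive.ofMul γ))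
    {A : ValuationSubring Qb} (hA : A.LiesOverPrime q) {t : GQ} (ht : t ∈ A.inertiaSubgroupIn ℚ)
    (c : (ZMod q)ˣ) (hc : ∀ μ : Qb, μ ^ q = 1 → t μ = μ ^ (c : ZMod q).val) :
    ρ.trace t = ((ηq c : 𝒪ˣ) : 𝒪) + (((ηq c)⁻¹ : 𝒪ˣ) : 𝒪) := by
  classical
  -- a functional not vanishing on some value of `φ`
  obtain ⟨γ₁, hγ₁⟩ : ∃ γ₁, φ γ₁ ≠ 0 := by
    by_contra h
    exact hφ (AddMonoidHom.ext fun a => not_not.1 (not_exists.1 h a))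
  obtain ⟨lam, hlam⟩ : ∃ lam : Module.Dual K W, lam (φ γ₁) ≠ 0 := by
    by_contra h
    exact hγ₁ ((Module.forall_dual_apply_eq_zero_iff K (φ γ₁)).1
      fun f => not_not.1 (not_exists.1 h f))
  set φK : Additive (pmGamma1 (M * q)) →+ K := (lam : W →+ K).comp φ with hφK
  have hφK_app : ∀ a, φK a = lam (φ a) := fun a => rfl
  have hφK0 : φK ≠ 0 := fun h => hlam (by rw [← hφK_app, h, AddMonoidHom.zero_apply])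
  refine trace_inertia_kgd_odd (K := K) hp2 hp𝒪 h5 hqM hpq h49 hN S₀ hS₀ ρ hspan τ hρ χq ηq hη hχ1
    hχpow b hb φK hφK0 ?_ ?_ ?_ hA ht c hc
  · intro γ hγ
    rw [hφK_app, hpar γ hγ, map_zero]
  · intro ℓ hℓ hℓS γ
    simp only [hφK_app]
    rw [← map_sum, hT ℓ hℓ hℓS γ, map_smul, smul_eq_mul]
  · intro d γ
    rw [hφK_app, hd d γ, map_smul, smul_eq_mul, hφK_app]


end Main

end Fermat.Agent.S59lib.LGC3
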